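/-
PROJECT J (S30), slice J-5 (D), second file (general part): correspondences on divisors and on
`Pic⁰` commute with semilinear automorphisms.

Setting: `φ : F →ₐ[K] F'` an integral homomorphism of function fields over `K`, and semilinear
automorphisms `g` of `F`, `g'` of `F'` with `g' ∘ φ = φ ∘ g`
(the Prelude's `SemilinearAut.IntertwinesAlong φ g g'`).  Then

* `restrictAlong_smul`        : `(g' • w)|_F = g • (w|_F)`;
* `ramificationIndexAlong_smul`, `inertiaDegAlong_smul` : `e` and `f` are invariant;
* `pullbackAlong_smul`        : `φ^* (g • D) = g' • φ^* D`;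
* `pushforwardAlong_smul`     : `φ_* (g' • E) = g • φ_* E`;
* `correspondence_smul`       : `ψ_* φ^* (g • D) = g • ψ_* φ^* D` on divisors,
* `pic0_correspondence_smul`  : the same on `Pic⁰`.

Mathlib + Prelude only.
-/
import Mathlib
import Fermat.Prelude.Def_AlgebraicCurve_Correspondence

set_option autoImplicit false

namespace Fermat.Agent.S30.Arith.CorrEquivariant

open AlgebraicCurve AlgebraicCurve.SemilinearAut
open scoped Pointwise

variable {K F F' : Type*} [Field K] [Field F] [Field F'] [Algebra K F] [Algebra K F']

section Tower

variable [Algebra F F'] [IsScalarTower K F F'] [Algebra.IsIntegral F F']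
variable {g : SemilinearAut K F} {g' : SemilinearAut K F'}

/-- the ring isomorphism `O_{w|F} ≃ O_{(g' • w)|F}` induced by `g` -/
noncomputable def restrictSMulEquiv (h : ∀ x : F, g' • algebraMap F F' x = algebraMap F F' (g • x))
    (w : Place K F') :
    (w.restrict F).toValuationSubring ≃+* ((g' • w).restrict F).toValuationSubring where
  toFun x := ⟨g • (x : F), by
    rw [Place.mem_restrict_iff, ← h, smul_toValuationSubring]
    exact ValuationSubring.smul_mem_pointwise_smul g' _ _ x.2⟩
  invFun y := ⟨g⁻¹ • (y : F), by
    have hy := y.2
    rw [Place.mem_restrict_iff, smul_toValuationSubring,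
      ValuationSubring.mem_pointwise_smul_iff_inv_smul_mem] at hy
    rw [Place.mem_restrict_iff]
    have e : g'⁻¹ • algebraMap F F' (y : F) = algebraMap F F' (g⁻¹ • (y : F)) := by
      have h1 := h (g⁻¹ • (y : F))
      rw [smul_inv_smul] at h1
      rw [← h1, inv_smul_smul]
    rw [← e]
    exact hy⟩
  left_inv x := by ext; simp
  right_inv y := by ext; simp
  map_mul' x y := Subtype.ext (smul_mul' g (x : F) (y : F))
  map_add' x y := Subtype.ext (smul_add g (x : F) (y : F))

@[simp]
theorem coe_restrictSMulEquiv_apply
    (h : ∀ x : F, g' • algebraMap F F' x = algebraMap F F' (g • x))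
    (w : Place K F') (x : (w.restrict F).toValuationSubring) :
    ((restrictSMulEquiv h w x : ((g' • w).restrict F).toValuationSubring) : F)
      = g • (x : F) := rfl

/-- the inertia degree is invariant under intertwining automorphisms (tower form) -/
theorem inertiaDeg_smul (h : ∀ x : F, g' • algebraMap F F' x = algebraMap F F' (g • x))
    (w : Place K F') : (g' • w).inertiaDeg F = w.inertiaDeg F := by
  show Module.finrank ((g' • w).restrict F).ResidueField (g' • w).ResidueField
    = Module.finrank (w.restrict F).ResidueField w.ResidueField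
  symm
  refine Algebra.finrank_eq_of_equiv_equiv
    (IsLocalRing.ResidueField.mapEquiv (restrictSMulEquiv h w))
    (smulResidueRingEquiv g' w) ?_
  ext a
  obtain ⟨a, rfl⟩ := IsLocalRing.residue_surjective a
  show Place.restrictResidueMap F (g' • w)
      (IsLocalRing.ResidueField.mapEquiv (restrictSMulEquiv h w) (IsLocalRing.residue _ a))
    = IsLocalRing.ResidueField.mapEquiv (smulValuationSubringEquiv g' w.toValuationSubring)
      (Place.restrictResidueMap F w (IsLocalRing.residue _ a))
  rw [IsLocalRing.ResidueField.mapEquiv_apply, IsLocalRing.ResidueField.map_residue,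
    Place.restrictResidueMap_residue, Place.restrictResidueMap_residue,
    IsLocalRing.ResidueField.mapEquiv_apply, IsLocalRing.ResidueField.map_residue]
  refine congrArg _ (Subtype.ext ?_)
  show algebraMap F F' (g • (a : F)) = g' • algebraMap F F' (a : F)
  exact (h _).symm

end Tower

section Places

variable (φ : F →ₐ[K] F') (hφ : φ.toRingHom.IsIntegral)
variable {g : SemilinearAut K F} {g' : SemilinearAut K F'}

theorem intertwines_apply (h : IntertwinesAlong (φ : F →+* F') g g') (x : F) :
    g' • φ x = φ (g • x) := h x

theorem intertwines_inv_apply (h : IntertwinesAlong (φ : F →+* F') g g') (x : F) :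
    g'⁻¹ • φ x = φ (g⁻¹ • x) := h.inv x

theorem mem_restrictAlong_iff (w : Place K F') (x : F) :
    x ∈ (w.restrictAlong φ hφ).toValuationSubring ↔ φ x ∈ w.toValuationSubring :=
  Iff.rfl

/-- restriction of places commutes with intertwining automorphisms -/
theorem restrictAlong_smul (h : IntertwinesAlong (φ : F →+* F') g g') (w : Place K F') :
    (g' • w).restrictAlong φ hφ = g • w.restrictAlong φ hφ := by
  apply Place.ext
  ext x
  rw [mem_restrictAlong_iff, smul_toValuationSubring, smul_toValuationSubring,
    ValuationSubring.mem_pointwise_smul_iff_inv_smul_mem,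
    ValuationSubring.mem_pointwise_smul_iff_inv_smul_mem, mem_restrictAlong_iff,
    intertwines_inv_apply φ h]

theorem ord_smul_apply (h : IntertwinesAlong (φ : F →+* F') g g') (w : Place K F') (f : F) :
    (g' • w).ord (φ (g • f)) = w.ord (φ f) := by
  rw [← intertwines_apply φ h, ord_smul]

theorem ramificationIndexAlong_def (w : Place K F') :
    Place.ramificationIndexAlong φ w
      = sInf {n : ℕ | 0 < n ∧ ∃ f : F, f ≠ 0 ∧ w.ord (φ f) = n} := rfl

/-- the ramification index is invariant under intertwining automorphisms -/
theorem ramificationIndexAlong_smul (h : IntertwinesAlong (φ : F →+* F') g g')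
    (w : Place K F') :
    Place.ramificationIndexAlong φ (g' • w) = Place.ramificationIndexAlong φ w := by
  rw [ramificationIndexAlong_def, ramificationIndexAlong_def]
  congr 1
  ext n
  constructor
  · rintro ⟨hn, f, hf, e⟩
    refine ⟨hn, g⁻¹ • f, by simpa using hf, ?_⟩
    rw [← e, ← ord_smul_apply φ h w (g⁻¹ • f), smul_inv_smul]
  · rintro ⟨hn, f, hf, e⟩
    refine ⟨hn, g • f, by simpa using hf, ?_⟩
    rw [← e, ord_smul_apply φ h]

/-- the inertia degree is invariant under intertwining automorphisms -/
theorem inertiaDegAlong_smul (h : IntertwinesAlong (φ : F →+* F') g g') (w : Place K F') :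
    Place.inertiaDegAlong φ hφ (g' • w) = Place.inertiaDegAlong φ hφ w := by
  letI := algebraAlong φ
  haveI := isScalarTower_along φ
  haveI := isIntegral_along φ hφ
  exact inertiaDeg_smul (fun x => h x) w

end Places

section Divisors

variable (φ : F →ₐ[K] F') (hφ : φ.toRingHom.IsIntegral)
variable {g : SemilinearAut K F} {g' : SemilinearAut K F'}

/-- pull-back of divisors commutes with intertwining automorphisms -/
theorem pullbackAlong_smul [HasPrincipalDivisors K F']
    (h : IntertwinesAlong (φ : F →+* F') g g') (D : Divisor K F) :
    Divisor.pullbackAlong φ hφ (g • D) = g' • Divisor.pullbackAlong φ hφ D := by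
  ext w
  rw [Divisor.pullbackAlong_apply, divisor_smul_apply g', Divisor.pullbackAlong_apply,
    divisor_smul_apply g, restrictAlong_smul φ hφ h.inv, ramificationIndexAlong_smul φ h.inv]

/-- push-forward of divisors commutes with intertwining automorphisms -/
theorem pushforwardAlong_smul (h : IntertwinesAlong (φ : F →+* F') g g') (E : Divisor K F') :
    Divisor.pushforwardAlong φ hφ (g' • E) = g • Divisor.pushforwardAlong φ hφ E := by
  induction E using Finsupp.induction_linear with
  | zero => simp
  | add D E hD hE => rw [smul_add, map_add, map_add, smul_add, hD, hE]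
  | single w n =>
    rw [smul_single, Divisor.pushforwardAlong_single, Divisor.pushforwardAlong_single,
      smul_single, restrictAlong_smul φ hφ h, inertiaDegAlong_smul φ hφ h]

variable (ψ : F →ₐ[K] F') (hψ : ψ.toRingHom.IsIntegral)

/-- correspondences on divisors commute with intertwining automorphisms -/
theorem correspondence_smul [HasPrincipalDivisors K F']
    (h : IntertwinesAlong (φ : F →+* F') g g') (h' : IntertwinesAlong (ψ : F →+* F') g g')
    (D : Divisor K F) :
    Divisor.correspondence φ ψ hφ hψ (g • D) = g • Divisor.correspondence φ ψ hφ hψ D := by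
  rw [Divisor.correspondence_apply, Divisor.correspondence_apply, pullbackAlong_smul φ hφ h,
    pushforwardAlong_smul ψ hψ h']

/-- correspondences on `Pic⁰` commute with intertwining automorphisms -/
theorem pic0_correspondence_smul [HasPrincipalDivisors K F']
    (hFI : FundamentalIdentityAlong K φ hφ) (hfin : FiniteAlong K ψ)
    (hN : NormFormulaAlong K ψ hfin)
    (h : IntertwinesAlong (φ : F →+* F') g g') (h' : IntertwinesAlong (ψ : F →+* F') g g')
    (x : Pic0 K F) :
    Pic0.correspondence φ ψ hφ hψ hFI hfin hN (g • x)
      = g • Pic0.correspondence φ ψ hφ hψ hFI hfin hN x := by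
  obtain ⟨D, rfl⟩ := Pic0.mk_surjective x
  rw [pic0_smul_mk, Pic0.correspondence_mk, Pic0.correspondence_mk, pic0_smul_mk]
  refine congrArg Pic0.mk (Subtype.ext ?_)
  rw [Pic0.coe_degZeroCorrespondence, coe_degZeroSMulHom, coe_degZeroSMulHom,
    Pic0.coe_degZeroCorrespondence, correspondence_smul φ hφ ψ hψ h h']

end Divisors

end Fermat.Agent.S30.Arith.CorrEquivariant
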