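/-
PROJECT J (S30), slice J-5 (D), second file (instance): the Hecke operators on `JZero N` are
"defined over `ℚ`", i.e. they commute with the arithmetic Galois action.

* `heckeOperatorAlong_smul` : for any field `L ⊇ ℚ`, any level `N`, any `ℓ ≠ 0` and any
  `σ : L ≃ₐ[ℚ] L`, `heckeOperatorAlong L N ℓ (σ • x) = σ • heckeOperatorAlong L N ℓ x` on
  `Pic⁰ (L ⊗ ℚ(X₀(N)))` (unconditional: if the Hecke inputs fail both sides are `0`);
* `heckeOperatorBar_smul`   : `heckeOperatorBar N r (σ • x) = σ • heckeOperatorBar N r x` for every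
  prime `r` (also `r ∣ N`) and every `σ ∈ G_ℚ`;
* `smulCommClass_galois_heckeAlg` : the `SMulCommClass G_ℚ HeckeAlg (JZero N)` hypothesis of the
  frozen S37, unconditionally (for `heckeModuleBar N`).

The degeneracy maps `α` (inclusion) and `β` (`q ↦ q^ℓ`) act on `q`-expansions and commute with the
coefficientwise action of `σ`; the general equivariance of correspondences is
`Fermat.Agent.S30.Arith.CorrEquivariant`.
-/
import Fermat.Agent.S30.Arith.CorrEquivariant
import Fermat.Prelude.Def_ModularCurve_HeckeModule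
import Fermat.Prelude.Thm_ModularCurve_coeffMap_qExpand

set_option autoImplicit false

namespace Fermat.Agent.S30.Arith.HeckeGalois

open AlgebraicCurve ModularCurve Fermat.Agent.S30.Arith.CorrEquivariant

section Along

variable {L : Type*} [Field L] [Algebra ℚ L] (N ℓ : ℕ) [NeZero N] [NeZero ℓ]

/-- `α` (the inclusion of function fields) commutes with the coefficientwise Galois action -/
theorem intertwines_alpha (σ : L ≃ₐ[ℚ] L) :
    SemilinearAut.IntertwinesAlong ((heckeAlphaBar L N ℓ : _ →ₐ[L] _) : _ →+* _)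
      (arithmeticGalois (modularFunctionFieldFull N) σ)
      (arithmeticGalois (modularFunctionFieldFull (N * ℓ)) σ) := by
  intro x
  apply Subtype.ext
  rw [coe_arithmeticGalois_smul]
  show coeffMap (σ : L →+* L) ((heckeAlphaBar L N ℓ x : _) : LaurentSeries L)
    = ((heckeAlphaBar L N ℓ (arithmeticGalois (modularFunctionFieldFull N) σ • x) : _) :
      LaurentSeries L)
  rw [coe_heckeAlphaBar, coe_heckeAlphaBar, coe_arithmeticGalois_smul]

omit [NeZero N] in
/-- `β` (`q ↦ q^ℓ`) commutes with the coefficientwise Galois action -/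
theorem intertwines_beta (σ : L ≃ₐ[ℚ] L) :
    SemilinearAut.IntertwinesAlong ((heckeBetaBar L N ℓ : _ →ₐ[L] _) : _ →+* _)
      (arithmeticGalois (modularFunctionFieldFull N) σ)
      (arithmeticGalois (modularFunctionFieldFull (N * ℓ)) σ) := by
  intro x
  apply Subtype.ext
  rw [coe_arithmeticGalois_smul]
  show coeffMap (σ : L →+* L) ((heckeBetaBar L N ℓ x : _) : LaurentSeries L)
    = ((heckeBetaBar L N ℓ (arithmeticGalois (modularFunctionFieldFull N) σ • x) : _) :
      LaurentSeries L)
  rw [coe_heckeBetaBar, coe_heckeBetaBar, coe_arithmeticGalois_smul, coeffMap_qExpand]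

/-- **The Hecke correspondence over any field `L ⊇ ℚ` commutes with `Aut(L/ℚ)`.** -/
theorem heckeOperatorAlong_smul (σ : L ≃ₐ[ℚ] L)
    (x : Pic0 L (laurentBaseChange L (modularFunctionFieldFull N))) :
    heckeOperatorAlong L N ℓ (σ • x) = σ • heckeOperatorAlong L N ℓ x := by
  by_cases h : HeckeInputsAlong L N ℓ
  · obtain ⟨hα, hβ, hP, hfin, hFI, hN⟩ := h
    haveI := hP
    rw [heckeOperatorAlong_eq hα hβ hFI hfin hN, galois_smul_pic0_def, galois_smul_pic0_def]
    exact pic0_correspondence_smul (heckeBetaBar L N ℓ) hβ (heckeAlphaBar L N ℓ) hα hFI hfin hN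
      (intertwines_beta N ℓ σ) (intertwines_alpha N ℓ σ) x
  · rw [heckeOperatorAlong_of_not h]
    simp

end Along

section Bar

local notation "GQ" => (AlgebraicClosure ℚ ≃ₐ[ℚ] AlgebraicClosure ℚ)

variable (N : ℕ) [NeZero N]

/-- **Hecke operators on `J₀(N)(ℚ̄)` commute with `G_ℚ`** (all primes `r`, also `r ∣ N`). -/
theorem heckeOperatorBar_smul (r : Nat.Primes) (σ : GQ) (x : JZero N) :
    heckeOperatorBar N r (σ • x) = σ • heckeOperatorBar N r x := by
  haveI : NeZero (r : ℕ) := ⟨r.2.ne_zero⟩
  rw [heckeOperatorBar_apply, heckeOperatorBar_apply]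
  exact heckeOperatorAlong_smul N r σ x

/-- every element of the subalgebra generated by the Hecke operators commutes with `G_ℚ` -/
theorem adjoin_smul (σ : GQ) {T : Module.End ℤ (JZero N)}
    (hT : T ∈ Algebra.adjoin ℤ (Set.range (heckeOperatorBar N))) (x : JZero N) :
    T (σ • x) = σ • T x := by
  induction hT using Algebra.adjoin_induction generalizing x with
  | mem T hT =>
    obtain ⟨r, rfl⟩ := hT
    exact heckeOperatorBar_smul N r σ x
  | algebraMap a =>
    rw [Algebra.algebraMap_eq_smul_one, LinearMap.smul_apply, LinearMap.smul_apply,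
      Module.End.one_apply, Module.End.one_apply]
    exact (map_zsmul (DistribSMul.toAddMonoidHom (JZero N) σ) a x).symm
  | add S T _ _ hS hT => rw [LinearMap.add_apply, LinearMap.add_apply, hS, hT, smul_add]
  | mul S T _ _ hS hT => rw [Module.End.mul_apply, Module.End.mul_apply, hT, hS]

/-- The `SMulCommClass` hypothesis of the frozen statement S37 holds unconditionally. -/
theorem smulCommClass_galois_heckeAlg :
    letI := heckeModuleBar N
    SMulCommClass GQ HeckeAlg (JZero N) := by
  letI := heckeModuleBar N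
  refine ⟨fun σ t x => ?_⟩
  by_cases h : HeckeOperatorsCommuteBar N
  · rw [heckeModuleBar_smul_def h, heckeModuleBar_smul_def h, heckeEvalBar_apply]
    exact (adjoin_smul N σ (heckeEvalBarAux h t).2 x).symm
  · rw [heckeModuleBar_smul_of_not h, heckeModuleBar_smul_of_not h]
    exact map_zsmul (DistribSMul.toAddMonoidHom (JZero N) σ) _ x

end Bar

end Fermat.Agent.S30.Arith.HeckeGalois
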