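/-
PROJECT J (S30), slice J-5 (D), first file: the arithmetic input on `p`-power torsion of
`JZero N`, hypotheses-first against project I's interface
`Fermat.Agent.S37.ReductionJZero.HasReduction` ((R1)-(R4) of helper22's I-0).

Let `hred : HasReduction N p ℓ hℓ A`.  Then on the `p`-power torsion of `JZero N`

* `inertia_smul_eq`   : the inertia subgroup at `A` acts trivially;
* `frobenius_quadratic` : every Frobenius element `σ` at `A` satisfies
  `σ² - T_ℓ σ + ℓ = 0`, where `T_ℓ = heckeOperatorBar N ℓ`.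

Both are three-line consequences of `(R4)` (injectivity of `red` on `p`-power torsion):
the element in question is `p`-power torsion and is killed by `red`.  Neither needs
`HeckeOperatorsCommuteBar` nor the commutation of Galois with Hecke.

The second half packages the statement for all primes at once (`HasReductionAll`), in the
exact form in which the frozen statement S30 quantifies over primes (`ℓ ∤ N`, `ℓ ≠ p`).
-/
import Fermat.Agent.S37.ReductionJZero

set_option autoImplicit false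

namespace Fermat.Agent.S30.Arith.Torsion

open ModularCurve Fermat.Agent.S37.ReductionJZero

local notation "Kb" => AlgebraicClosure ℚ
local notation "GQ" => (AlgebraicClosure ℚ ≃ₐ[ℚ] AlgebraicClosure ℚ)

section Basic

variable {M : Type*} [AddCommGroup M]

/-- `p`-power torsion is stable under every additive map. -/
theorem isTorsion_map {M' : Type*} [AddCommGroup M'] {p : ℕ} (f : M →+ M') {x : M}
    (hx : ∃ n : ℕ, p ^ n • x = 0) : ∃ n : ℕ, p ^ n • f x = 0 := by
  obtain ⟨n, hn⟩ := hx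
  exact ⟨n, by rw [← map_nsmul, hn, map_zero]⟩

theorem isTorsion_add {p : ℕ} {x y : M}
    (hx : ∃ n : ℕ, p ^ n • x = 0) (hy : ∃ n : ℕ, p ^ n • y = 0) :
    ∃ n : ℕ, p ^ n • (x + y) = 0 := by
  obtain ⟨n, hn⟩ := hx
  obtain ⟨m, hm⟩ := hy
  refine ⟨n + m, ?_⟩
  have h1 : p ^ (n + m) • x = 0 := by
    rw [pow_add, mul_nsmul, hn, nsmul_zero]
  have h2 : p ^ (n + m) • y = 0 := by
    rw [pow_add, mul_comm, mul_nsmul, hm, nsmul_zero]
  rw [nsmul_add, h1, h2, add_zero]

theorem isTorsion_neg {p : ℕ} {x : M}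
    (hx : ∃ n : ℕ, p ^ n • x = 0) : ∃ n : ℕ, p ^ n • (-x) = 0 := by
  obtain ⟨n, hn⟩ := hx
  exact ⟨n, by rw [neg_nsmul, hn, neg_zero]⟩

theorem isTorsion_sub {p : ℕ} {x y : M}
    (hx : ∃ n : ℕ, p ^ n • x = 0) (hy : ∃ n : ℕ, p ^ n • y = 0) :
    ∃ n : ℕ, p ^ n • (x - y) = 0 := by
  rw [sub_eq_add_neg]
  exact isTorsion_add hx (isTorsion_neg hy)

theorem isTorsion_nsmul {p : ℕ} (m : ℕ) {x : M}
    (hx : ∃ n : ℕ, p ^ n • x = 0) : ∃ n : ℕ, p ^ n • (m • x) = 0 := by
  obtain ⟨n, hn⟩ := hx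
  exact ⟨n, by rw [← mul_nsmul, mul_comm, mul_nsmul, hn, nsmul_zero]⟩

variable {N : ℕ} [NeZero N]

omit [NeZero N] in
/-- `p`-power torsion is stable under the Galois action. -/
theorem isTorsion_smul {p : ℕ} (σ : GQ) {x : JZero N}
    (hx : ∃ n : ℕ, p ^ n • x = 0) : ∃ n : ℕ, p ^ n • (σ • x) = 0 :=
  isTorsion_map (DistribSMul.toAddMonoidHom (JZero N) σ) hx

/-- `p`-power torsion is stable under the Hecke operators. -/
theorem isTorsion_hecke {p : ℕ} (r : Nat.Primes) {x : JZero N}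
    (hx : ∃ n : ℕ, p ^ n • x = 0) : ∃ n : ℕ, p ^ n • (heckeOperatorBar N r x) = 0 :=
  isTorsion_map (heckeOperatorBar N r).toAddMonoidHom hx

end Basic

section OnePrime

universe u

variable {N p : ℕ} [NeZero N] {ℓ : ℕ} {hℓ : ℓ.Prime} {A : ValuationSubring Kb}

/-- **(D1)** Inertia at `A` acts trivially on the `p`-power torsion of `JZero N`. -/
theorem inertia_smul_eq (hred : HasReduction.{u} N p ℓ hℓ A) {σ : GQ}
    (hσ : σ ∈ A.inertiaSubgroupIn ℚ) {x : JZero N} (hx : ∃ n : ℕ, p ^ n • x = 0) :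
    σ • x = x := by
  obtain ⟨X, _, red, Fb, V, -, R1, -, -, R4⟩ := hred
  have h0 : σ • x - x = 0 := by
    refine R4 _ (isTorsion_sub (isTorsion_smul σ hx) hx) ?_
    rw [map_sub, R1 σ hσ, sub_self]
  exact sub_eq_zero.1 h0

/-- **(D2)** Every Frobenius element `σ` at `A` satisfies the Eichler-Shimura quadratic
`σ² - T_ℓ σ + ℓ = 0` on the `p`-power torsion of `JZero N`. -/
theorem frobenius_quadratic (hred : HasReduction.{u} N p ℓ hℓ A) {σ : GQ}
    (hσ : A.IsFrobeniusAt σ ℓ) {x : JZero N} (hx : ∃ n : ℕ, p ^ n • x = 0) :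
    σ • σ • x - heckeOperatorBar N ⟨ℓ, hℓ⟩ (σ • x) + ℓ • x = 0 := by
  obtain ⟨X, _, red, Fb, V, hV, -, R2, R3, R4⟩ := hred
  refine R4 _ (isTorsion_add (isTorsion_sub (isTorsion_smul σ (isTorsion_smul σ hx))
    (isTorsion_hecke _ (isTorsion_smul σ hx))) (isTorsion_nsmul ℓ hx)) ?_
  rw [map_add, map_sub, R2 σ hσ, R2 σ hσ, R3, R2 σ hσ, hV, map_nsmul]
  abel

/-- (D2), operator form: the same relation with `T_ℓ` applied after `σ` replaced by `T_ℓ`
applied before `σ` is NOT claimed here (that needs Galois-Hecke commutation, see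
`Fermat.Agent.S30.Arith.HeckeGalois`). This variant just moves the terms around. -/
theorem frobenius_quadratic' (hred : HasReduction.{u} N p ℓ hℓ A) {σ : GQ}
    (hσ : A.IsFrobeniusAt σ ℓ) {x : JZero N} (hx : ∃ n : ℕ, p ^ n • x = 0) :
    σ • σ • x + ℓ • x = heckeOperatorBar N ⟨ℓ, hℓ⟩ (σ • x) := by
  have h := frobenius_quadratic hred hσ hx
  rw [sub_add_eq_add_sub, sub_eq_zero] at h
  exact h

end OnePrime

section AllPrimes

variable (N p : ℕ) [NeZero N]

/-- The output of project I: the reduction data (R1)-(R4) at every prime `ℓ ∤ N p` and every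
valuation subring over `ℓ` (this is exactly the hypothesis `hred` of
`ReductionJZero.result_of_hasReduction`, in universe `0`). -/
def HasReductionAll : Prop :=
  ∀ ℓ : ℕ, (hℓ : ℓ.Prime) → ¬ ℓ ∣ N * p →
    ∀ A : ValuationSubring Kb, A.LiesOverPrime ℓ → HasReduction.{0} N p ℓ hℓ A

variable {N p}

omit [NeZero N] in
theorem not_dvd_mul_of_ne (hp : p.Prime) {q : ℕ} (hq : q.Prime) (hqN : ¬ q ∣ N) (hqp : q ≠ p) :
    ¬ q ∣ N * p := by
  intro h
  rcases (Nat.Prime.dvd_mul hq).1 h with h | h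
  · exact hqN h
  · exact hqp ((Nat.prime_dvd_prime_iff_eq hq hp).1 h)

/-- **(D1), all primes**: `JZero N [p^∞]` is unramified at every prime `q ∤ N`, `q ≠ p`
(the shape of `GaloisRepAdic.IsUnramifiedAt` in the frozen S30). -/
theorem inertia_trivial (h : HasReductionAll N p) (hp : p.Prime) {q : ℕ} (hq : q.Prime)
    (hqN : ¬ q ∣ N) (hqp : q ≠ p) (P : ValuationSubring Kb) (hP : P.LiesOverPrime q)
    {σ : GQ} (hσ : σ ∈ P.inertiaSubgroupIn ℚ) {x : JZero N} (hx : ∃ n : ℕ, p ^ n • x = 0) :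
    σ • x = x :=
  inertia_smul_eq (h q hq (not_dvd_mul_of_ne hp hq hqN hqp) P hP) hσ hx

/-- **(D2), all primes**: for `ℓ ∤ N`, `ℓ ≠ p`, every Frobenius element at every valuation
subring over `ℓ` satisfies `σ² - T_ℓ σ + ℓ = 0` on `JZero N [p^∞]` (the quantifier shape of the
frozen S30). -/
theorem frobenius_relation (h : HasReductionAll N p) (hp : p.Prime) {ℓ : ℕ} (hℓ : ℓ.Prime)
    (hℓN : ¬ ℓ ∣ N) (hℓp : ℓ ≠ p) (A : ValuationSubring Kb) (hA : A.LiesOverPrime ℓ)
    {σ : GQ} (hσ : A.IsFrobeniusAt σ ℓ) {x : JZero N} (hx : ∃ n : ℕ, p ^ n • x = 0) :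
    σ • σ • x - heckeOperatorBar N ⟨ℓ, hℓ⟩ (σ • x) + ℓ • x = 0 :=
  frobenius_quadratic (h ℓ hℓ (not_dvd_mul_of_ne hp hℓ hℓN hℓp) A hA) hσ hx

end AllPrimes

end Fermat.Agent.S30.Arith.Torsion
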