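/-
PROJECT J (S30), slice J-5 (D), third file: the Galois action on `JZero N` is *smooth*: every
point is fixed by an open subgroup of `G_ℚ`.

General setting: `L/ℚ` algebraic, `F₀ ⊆ ℚ((q))` a field of rational `q`-series,
`F := laurentBaseChange L F₀` with principal divisors.  With `σ • -` the coefficientwise action
(`arithmeticGalois F₀ σ`):

* `exists_finite_fixing_elem`  : every `f ∈ F` is fixed by all `σ` fixing a finite `E/ℚ`;
* `exists_finite_fixing_place` : every place `P` of `F` is fixed by all `σ` fixing a finite `E/ℚ`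
  (take a uniformiser `y` at `P`; the finitely many places `Q` with `ord_Q y ≠ 0` are permuted by
  every `σ` fixing `y`; separate `P` from each such `Q ≠ P` by an element `f_Q` lying in exactly
  one of the two valuation rings; `E` := field of definition of `y` and of all `f_Q`);
* `exists_finite_fixing_divisor`, `exists_finite_fixing_pic0` : the same for divisors and classes.

For `JZero N`:

* `exists_finite_fixing (x : JZero N)`;
* `exists_finite_fixing_of_finite` : a finite set of points is fixed pointwise by an open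
  subgroup: the shape needed for the adic continuity of the Tate module once `J[pⁿ]` is finite.
-/
import Mathlib
import Fermat.Prelude.Def_ModularCurve_ArithmeticGalois
import Fermat.Agent.S18.A.Instances

set_option autoImplicit false

namespace Fermat.Agent.S30.Arith.Smooth

open AlgebraicCurve AlgebraicCurve.SemilinearAut ModularCurve
open scoped Pointwise

section General

variable {L : Type*} [Field L] [Algebra ℚ L] [Algebra.IsAlgebraic ℚ L]
variable (F₀ : IntermediateField ℚ (LaurentSeries ℚ))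

/-- `σ` fixes the intermediate field `E` pointwise -/
def Fixes (E : IntermediateField ℚ L) (σ : L ≃ₐ[ℚ] L) : Prop := ∀ a ∈ E, σ a = a

omit [Algebra.IsAlgebraic ℚ L] in
theorem Fixes.mono {E E' : IntermediateField ℚ L} (h : E ≤ E') {σ : L ≃ₐ[ℚ] L}
    (hσ : Fixes E' σ) : Fixes E σ := fun a ha => hσ a (h ha)

omit [Algebra.IsAlgebraic ℚ L] in
theorem Fixes.inv {E : IntermediateField ℚ L} {σ : L ≃ₐ[ℚ] L} (hσ : Fixes E σ) :
    Fixes E σ⁻¹ := fun a ha => by
  have h := hσ a ha
  calc σ⁻¹ a = σ⁻¹ (σ a) := by rw [h]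
    _ = a := σ.symm_apply_apply a

/-- every `q`-series in `L ⊗ F₀` is fixed coefficientwise by an open subgroup -/
theorem exists_finite_fixing_series {x : LaurentSeries L}
    (hx : x ∈ laurentBaseChange L F₀) :
    ∃ E : IntermediateField ℚ L, FiniteDimensional ℚ E ∧
      ∀ σ : L ≃ₐ[ℚ] L, Fixes E σ → coeffMap (σ : L →+* L) x = x := by
  rw [mem_laurentBaseChange_iff] at hx
  induction hx using Subfield.closure_induction with
  | mem y hy =>
    rcases hy with ⟨a, rfl⟩ | ⟨z, _, rfl⟩
    · refine ⟨IntermediateField.adjoin ℚ {a},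
        IntermediateField.adjoin.finiteDimensional (Algebra.IsIntegral.isIntegral a), ?_⟩
      intro σ hσ
      rw [coeffMap_algebraMap]
      congr 1
      exact hσ a (IntermediateField.mem_adjoin_simple_self ℚ a)
    · exact ⟨⊥, inferInstance, fun σ _ => coeffMap_coeffEmb σ z⟩
  | one => exact ⟨⊥, inferInstance, fun σ _ => map_one _⟩
  | add x y _ _ hx hy =>
    obtain ⟨E₁, h₁, hx⟩ := hx
    obtain ⟨E₂, h₂, hy⟩ := hy
    refine ⟨E₁ ⊔ E₂, IntermediateField.finiteDimensional_sup E₁ E₂, fun σ hσ => ?_⟩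
    rw [map_add, hx σ (hσ.mono le_sup_left), hy σ (hσ.mono le_sup_right)]
  | neg x _ hx =>
    obtain ⟨E₁, h₁, hx⟩ := hx
    exact ⟨E₁, h₁, fun σ hσ => by rw [map_neg, hx σ hσ]⟩
  | inv x _ hx =>
    obtain ⟨E₁, h₁, hx⟩ := hx
    exact ⟨E₁, h₁, fun σ hσ => by rw [map_inv₀, hx σ hσ]⟩
  | mul x y _ _ hx hy =>
    obtain ⟨E₁, h₁, hx⟩ := hx
    obtain ⟨E₂, h₂, hy⟩ := hy
    refine ⟨E₁ ⊔ E₂, IntermediateField.finiteDimensional_sup E₁ E₂, fun σ hσ => ?_⟩
    rw [map_mul, hx σ (hσ.mono le_sup_left), hy σ (hσ.mono le_sup_right)]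

/-- every function in `L ⊗ F₀` is fixed by an open subgroup -/
theorem exists_finite_fixing_elem (f : laurentBaseChange L F₀) :
    ∃ E : IntermediateField ℚ L, FiniteDimensional ℚ E ∧
      ∀ σ : L ≃ₐ[ℚ] L, Fixes E σ → arithmeticGalois F₀ σ • f = f := by
  obtain ⟨E, hE, h⟩ := exists_finite_fixing_series F₀ f.2
  refine ⟨E, hE, fun σ hσ => Subtype.ext ?_⟩
  rw [coe_arithmeticGalois_smul]
  exact h σ hσ

omit [Algebra.IsAlgebraic ℚ L] in
theorem inv_smul_eq_of_smul_eq {σ : L ≃ₐ[ℚ] L} {f : laurentBaseChange L F₀}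
    (h : arithmeticGalois F₀ σ • f = f) : (arithmeticGalois F₀ σ)⁻¹ • f = f := by
  conv_lhs => rw [← h]
  exact inv_smul_smul _ _

variable [HasPrincipalDivisors L (laurentBaseChange L F₀)]

/-- every place of `L ⊗ F₀` is fixed by an open subgroup -/
theorem exists_finite_fixing_place (P : Place L (laurentBaseChange L F₀)) :
    ∃ E : IntermediateField ℚ L, FiniteDimensional ℚ E ∧
      ∀ σ : L ≃ₐ[ℚ] L, Fixes E σ → arithmeticGalois F₀ σ • P = P := by
  classical
  obtain ⟨π, hπ⟩ := IsDiscreteValuationRing.exists_irreducible P.toValuationSubring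
  have hy0 : (π : laurentBaseChange L F₀) ≠ 0 := by
    simpa [ne_eq, ZeroMemClass.coe_eq_zero] using hπ.ne_zero
  have hyord : P.ord (π : laurentBaseChange L F₀) = 1 := P.ord_coe_irreducible hπ
  obtain ⟨D, hD, -⟩ := HasPrincipalDivisors.exists_divisor (K := L)
    (π : laurentBaseChange L F₀) hy0
  -- separating functions
  have hsep : ∀ Q : Place L (laurentBaseChange L F₀), Q ≠ P →
      ∃ f : laurentBaseChange L F₀,
        ¬ (f ∈ P.toValuationSubring ↔ f ∈ Q.toValuationSubring) := by
    intro Q hQ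
    by_contra hcon
    push Not at hcon
    exact hQ (Place.ext (SetLike.ext fun f => (hcon f).symm))
  choose! fsep hfsep using hsep
  obtain ⟨Ey, hEy, hy⟩ := exists_finite_fixing_elem F₀ (π : laurentBaseChange L F₀)
  choose Ef hEf hf using fun Q => exists_finite_fixing_elem F₀ (fsep Q)
  refine ⟨Ey ⊔ ⨆ Q ∈ D.support, Ef Q, ?_, ?_⟩
  · haveI : FiniteDimensional ℚ (⨆ Q ∈ D.support, Ef Q : IntermediateField ℚ L) :=
      IntermediateField.finiteDimensional_iSup_of_finset' fun Q _ => hEf Q
    exact IntermediateField.finiteDimensional_sup _ _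
  · intro σ hσ
    set g := arithmeticGalois F₀ σ with hg
    have hgy : g • (π : laurentBaseChange L F₀) = π := hy σ (hσ.mono le_sup_left)
    -- `g • P` is again a zero of `y`
    have hord : (g • P).ord (π : laurentBaseChange L F₀) = 1 := by
      conv_lhs => rw [← hgy]
      rw [ord_smul, hyord]
    have hmem : g • P ∈ D.support := by
      rw [Finsupp.mem_support_iff, hD, hord]
      exact one_ne_zero
    by_contra hne
    have hgf : g • fsep (g • P) = fsep (g • P) :=
      hf (g • P) σ (hσ.mono (le_sup_of_le_right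
        (le_iSup_of_le (g • P) (le_iSup (fun _ => Ef (g • P)) hmem))))
    apply hfsep (g • P) hne
    rw [smul_toValuationSubring, ValuationSubring.mem_pointwise_smul_iff_inv_smul_mem,
      inv_smul_eq_of_smul_eq F₀ hgf]

/-- every divisor of `L ⊗ F₀` is fixed by an open subgroup -/
theorem exists_finite_fixing_divisor (D : Divisor L (laurentBaseChange L F₀)) :
    ∃ E : IntermediateField ℚ L, FiniteDimensional ℚ E ∧
      ∀ σ : L ≃ₐ[ℚ] L, Fixes E σ → arithmeticGalois F₀ σ • D = D := by
  classical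
  choose Ef hEf hf using
    fun Q : Place L (laurentBaseChange L F₀) => exists_finite_fixing_place F₀ Q
  refine ⟨⨆ Q ∈ D.support, Ef Q,
    IntermediateField.finiteDimensional_iSup_of_finset' fun Q _ => hEf Q, fun σ hσ => ?_⟩
  rw [divisor_smul_def]
  have h : ∀ Q ∈ D.support, (arithmeticGalois F₀ σ • Q) = id Q := fun Q hQ =>
    hf Q σ (hσ.mono (le_iSup_of_le Q (le_iSup (fun _ => Ef Q) hQ)))
  rw [Finsupp.mapDomain_congr h, Finsupp.mapDomain_id]

/-- every point of `Pic⁰ (L ⊗ F₀)` is fixed by an open subgroup -/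
theorem exists_finite_fixing_pic0 (x : Pic0 L (laurentBaseChange L F₀)) :
    ∃ E : IntermediateField ℚ L, FiniteDimensional ℚ E ∧
      ∀ σ : L ≃ₐ[ℚ] L, Fixes E σ → σ • x = x := by
  obtain ⟨D, rfl⟩ := Pic0.mk_surjective x
  obtain ⟨E, hE, h⟩ := exists_finite_fixing_divisor F₀ (D : Divisor L (laurentBaseChange L F₀))
  refine ⟨E, hE, fun σ hσ => ?_⟩
  rw [galois_smul_pic0_def, pic0_smul_mk]
  refine congrArg Pic0.mk (Subtype.ext ?_)
  rw [coe_degZeroSMulHom]
  exact h σ hσ

end General

section Bar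

local notation "Kb" => AlgebraicClosure ℚ
local notation "GQ" => (AlgebraicClosure ℚ ≃ₐ[ℚ] AlgebraicClosure ℚ)

variable (N : ℕ) [NeZero N]

/-- **Open stabilisers**: every point of `J₀(N)(ℚ̄)` is fixed by `Gal(ℚ̄/E)` for a finite `E/ℚ`. -/
theorem exists_finite_fixing (x : JZero N) :
    ∃ E : IntermediateField ℚ Kb, FiniteDimensional ℚ E ∧
      ∀ σ : GQ, (∀ a ∈ E, σ a = a) → σ • x = x := by
  haveI := Fermat.Agent.S18.A.Instances.hasPrincipalDivisors_bar N
  haveI : Algebra.IsAlgebraic ℚ Kb := AlgebraicClosure.isAlgebraic ℚ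
  exact exists_finite_fixing_pic0 (modularFunctionFieldFull N) x

/-- A finite set of points of `J₀(N)(ℚ̄)` is fixed pointwise by `Gal(ℚ̄/E)` for a finite `E/ℚ`. -/
theorem exists_finite_fixing_of_finite {s : Set (JZero N)} (hs : s.Finite) :
    ∃ E : IntermediateField ℚ Kb, FiniteDimensional ℚ E ∧
      ∀ σ : GQ, (∀ a ∈ E, σ a = a) → ∀ x ∈ s, σ • x = x := by
  classical
  choose Ef hEf hf using fun x => exists_finite_fixing N x
  refine ⟨⨆ x ∈ hs.toFinset, Ef x,
    IntermediateField.finiteDimensional_iSup_of_finset' fun x _ => hEf x, fun σ hσ x hx => ?_⟩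
  refine hf x σ fun a ha => hσ a ?_
  have hle : Ef x ≤ ⨆ x ∈ hs.toFinset, Ef x :=
    le_iSup_of_le x (le_iSup (fun _ => Ef x) (hs.mem_toFinset.2 hx))
  exact hle ha

/-- If the `m`-torsion of `J₀(N)(ℚ̄)` is finite, it is fixed pointwise by an open subgroup:
the input for the adic continuity of the Tate module. -/
theorem exists_finite_fixing_torsion (m : ℕ) (hfin : {x : JZero N | m • x = 0}.Finite) :
    ∃ E : IntermediateField ℚ Kb, FiniteDimensional ℚ E ∧
      ∀ σ : GQ, (∀ a ∈ E, σ a = a) → ∀ x : JZero N, m • x = 0 → σ • x = x :=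
  exists_finite_fixing_of_finite N hfin

end Bar

end Fermat.Agent.S30.Arith.Smooth
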