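/-
PROJECT J (S30), slice J-5: the instantiation of the abstract core
`Fermat.Agent.S30.Padic.Assembly.exists_galoisRep` (helper14) at `J := JZero N`, `G := G_ℚ`,
`t r := heckeOperatorBar N r`.

Inputs that remain hypotheses:

* `hred : Torsion.HasReductionAll N p`  (the output of project I);
* `hfin : ∀ n, {y : JZero N | p ^ n • y = 0}.Finite`  (from (A)+(B): `J[n] ≃ X_n`);
* `h2`  : the eigen-lattice of `R ⊗ T_p J₀(N)` for the eigenvalues `c` has rank two (J-4).

Everything else is discharged here: Galois-Hecke commutation (`HeckeGalois.heckeOperatorBar_smul`),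
open stabilisers (`Smooth.exists_finite_fixing_torsion`), the Eichler-Shimura quadratic relation
for Frobenius lifts and the triviality of inertia on `J[p^∞]` (`Torsion`).

Output (`exists_galoisRep_JZero`): `ρ : GaloisRepAdic R` with
`DetGalois.FrobRelation ρ S a` and `ρ.IsUnramifiedAt q` for `q ∤ N`, `q ≠ p`: exactly the input of
helper26's `DetGalois.exists_rep_charpoly`.
-/
import Fermat.Agent.S30.Padic.Assembly
import Fermat.Agent.S30.Arith.Torsion
import Fermat.Agent.S30.Arith.HeckeGalois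
import Fermat.Agent.S30.Arith.Smooth
import Fermat.Agent.S30.Algebra.DetGalois

set_option autoImplicit false

noncomputable section

namespace Fermat.Agent.S30.Arith.TateInputs

open ModularCurve IsLocalRing
open Fermat.Agent.S30.Padic.Assembly Fermat.Agent.S30.Padic.EigenLattice
open Fermat.Agent.S30.Algebra

local notation "Kb" => AlgebraicClosure ℚ
local notation "GQ" => (AlgebraicClosure ℚ ≃ₐ[ℚ] AlgebraicClosure ℚ)

variable (N : ℕ) [NeZero N]

/-- The Hecke operator `T_r` (`r` any prime) as an additive endomorphism of `JZero N`. -/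
def heckeEnd (r : Nat.Primes) : AddMonoid.End (JZero N) :=
  (heckeOperatorBar N r).toAddMonoidHom

@[simp]
theorem heckeEnd_apply (r : Nat.Primes) (x : JZero N) :
    heckeEnd N r x = heckeOperatorBar N r x := rfl

/-- Hecke operators commute with `G_ℚ` (the `ht` input of `Assembly.exists_galoisRep`). -/
theorem heckeEnd_smul (σ : GQ) (r : Nat.Primes) (y : JZero N) :
    heckeEnd N r (σ • y) = σ • heckeEnd N r y :=
  HeckeGalois.heckeOperatorBar_smul N r σ y

/-- Open stabilisers on `J[pⁿ]` (the `hC` input of `Assembly.exists_galoisRep`). -/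
theorem openStabilisers (p : ℕ) (hfin : ∀ n : ℕ, {y : JZero N | p ^ n • y = 0}.Finite) (n : ℕ) :
    ∃ L : IntermediateField ℚ Kb, FiniteDimensional ℚ L ∧
      ∀ σ : GQ, (∀ x ∈ L, σ x = x) → ∀ y : JZero N, p ^ n • y = 0 → σ • y = y :=
  Smooth.exists_finite_fixing_torsion N (p ^ n) (hfin n)

/-- The eigenvalue function `ℕ → R` attached to a family indexed by the primes. -/
def eigenFun {R : Type*} [Zero R] (c : Nat.Primes → R) (ℓ : ℕ) : R :=
  if h : ℓ.Prime then c ⟨ℓ, h⟩ else 0

theorem eigenFun_prime {R : Type*} [Zero R] (c : Nat.Primes → R) {ℓ : ℕ} (h : ℓ.Prime) :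
    eigenFun c ℓ = c ⟨ℓ, h⟩ := dif_pos h

section Main

variable (p : ℕ) [Fact p.Prime]
variable {R : Type} [CommRing R] [Algebra ℤ_[p] R] [IsDomain R] [IsPrincipalIdealRing R]
  [IsLocalRing R]

/-- **J-5 for `J₀(N)`, general index set.**  `t : ι → End (JZero N)` a family of additive
endomorphisms commuting with `G_ℚ` which contains the Hecke operators `T_r` (`idx r`), `c` a family
of eigenvalues whose eigen-lattice in `R ⊗ T_p J₀(N)` has rank two.  Then there is a
`GaloisRepAdic R` satisfying the Eichler-Shimura quadratic relation at every Frobenius lift at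
`ℓ ∉ S` and unramified outside `N p`. -/
theorem exists_galoisRep_JZero_of_family (hpR : (p : R) ∈ maximalIdeal R)
    (hred : Torsion.HasReductionAll N p)
    (hfin : ∀ n : ℕ, {y : JZero N | p ^ n • y = 0}.Finite)
    (S : Finset ℕ) (hpS : p ∈ S) (hNS : ∀ q : ℕ, q.Prime → q ∣ N → q ∈ S)
    {ι : Type*} (t : ι → AddMonoid.End (JZero N))
    (ht : ∀ (σ : GQ) (i : ι) (y : JZero N), t i (σ • y) = σ • t i y)
    (idx : Nat.Primes → ι) (hidx : ∀ r, t (idx r) = heckeEnd N r) (c : ι → R)
    (h2 : Module.finrank R (eigenLattice (fun i => opVHom p R (JZero N) (t i)) c) = 2) :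
    ∃ ρ : GaloisRepAdic R,
      DetGalois.FrobRelation ρ S (eigenFun fun r => c (idx r)) ∧
      ∀ q : ℕ, q.Prime → (¬ q ∣ N ∧ q ≠ p) → ρ.IsUnramifiedAt q := by
  have hp : p.Prime := Fact.out
  have hfin1 : {y : JZero N | p • y = 0}.Finite := by
    have h := hfin 1
    simpa only [pow_one] using h
  obtain ⟨ρ, hq, hu⟩ := exists_galoisRep (p := p) (R := R) (J := JZero N) hpR hfin1
    (openStabilisers N p hfin) t ht c h2
  refine ⟨ρ, ?_, ?_⟩
  · intro ℓ hℓ hℓS A hA σ hσ
    have hℓN : ¬ ℓ ∣ N := fun h => hℓS (hNS ℓ hℓ h)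
    have hℓp : ℓ ≠ p := fun h => hℓS (h ▸ hpS)
    have h := hq σ (idx ⟨ℓ, hℓ⟩) (ℓ : ℤ) (fun y hy => by
      have e := Torsion.frobenius_relation hred hp hℓ hℓN hℓp A hA hσ hy
      have e2 : (t (idx ⟨ℓ, hℓ⟩)) (σ • y) = heckeOperatorBar N ⟨ℓ, hℓ⟩ (σ • y) :=
        congrArg (fun f : AddMonoid.End (JZero N) => f (σ • y)) (hidx ⟨ℓ, hℓ⟩)
      rw [e2, natCast_zsmul]
      exact e)
    rw [eigenFun_prime _ hℓ]
    simpa using h
  · intro q hq' hqNp P hP σ hσ
    exact hu σ fun y hy => Torsion.inertia_trivial hred hp hq' hqNp.1 hqNp.2 P hP hσ hy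

/-- **J-5 for `J₀(N)`, the family of all Hecke operators `T_r`, `r` prime.** -/
theorem exists_galoisRep_JZero (hpR : (p : R) ∈ maximalIdeal R)
    (hred : Torsion.HasReductionAll N p)
    (hfin : ∀ n : ℕ, {y : JZero N | p ^ n • y = 0}.Finite)
    (S : Finset ℕ) (hpS : p ∈ S) (hNS : ∀ q : ℕ, q.Prime → q ∣ N → q ∈ S)
    (c : Nat.Primes → R)
    (h2 : Module.finrank R
      (eigenLattice (fun r => opVHom p R (JZero N) (heckeEnd N r)) c) = 2) :
    ∃ ρ : GaloisRepAdic R,
      DetGalois.FrobRelation ρ S (eigenFun c) ∧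
      ∀ q : ℕ, q.Prime → (¬ q ∣ N ∧ q ≠ p) → ρ.IsUnramifiedAt q :=
  exists_galoisRep_JZero_of_family N p hpR hred hfin S hpS hNS (heckeEnd N)
    (fun σ r y => heckeEnd_smul N σ r y) id (fun _ => rfl) c h2

end Main

end Fermat.Agent.S30.Arith.TateInputs

end
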