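/-
PROJECT J (S30), slice J-5: finiteness of `J[pⁿ]` from finiteness of `J[p]`, and the variant of
`TateInputs.exists_galoisRep_JZero` whose finiteness hypothesis is on `J[p]` only.

* `finite_pow_torsion` : in any abelian group, if `{y | p • y = 0}` is finite then so is
  `{y | p ^ n • y = 0}` for every `n` (induction: multiplication by `p` maps `J[p^(n+1)]` to
  `J[pⁿ]` with fibres that are cosets of `J[p]`).
* `exists_galoisRep_JZero'` : `TateInputs.exists_galoisRep_JZero` with
  `hfin : {y : JZero N | p • y = 0}.Finite`.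
-/
import Fermat.Agent.S30.Arith.TateInputs

set_option autoImplicit false

namespace Fermat.Agent.S30.Arith.TorsionFinite

open ModularCurve IsLocalRing
open Fermat.Agent.S30.Padic.Assembly Fermat.Agent.S30.Padic.EigenLattice
open Fermat.Agent.S30.Algebra

section General

variable {M : Type*} [AddCommGroup M]

/-- If the `p`-torsion of an abelian group is finite, so is its `pⁿ`-torsion. -/
theorem finite_pow_torsion (p : ℕ) (h : {y : M | p • y = 0}.Finite) (n : ℕ) :
    {y : M | p ^ n • y = 0}.Finite := by
  induction n with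
  | zero =>
    refine (Set.finite_singleton (0 : M)).subset ?_
    intro y hy
    simpa using hy
  | succ n ih =>
    -- `y ↦ p • y` maps `J[p^(n+1)]` into `J[pⁿ]` with finite fibres
    have hmaps : Set.MapsTo (fun y : M => p • y) {y : M | p ^ (n + 1) • y = 0}
        {y : M | p ^ n • y = 0} := by
      intro y hy
      show p ^ n • p • y = 0
      rw [← mul_nsmul, mul_comm, ← pow_succ]
      exact hy
    refine Set.Finite.of_finite_fibers (fun y : M => p • y)
      (ih.subset (Set.image_subset_iff.2 hmaps)) ?_
    intro z _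
    by_cases hz : ∃ y₀ : M, p • y₀ = z
    · obtain ⟨y₀, rfl⟩ := hz
      have hsub : ({y : M | p ^ (n + 1) • y = 0} ∩ (fun y : M => p • y) ⁻¹' {p • y₀})
          ⊆ (fun t : M => y₀ + t) '' {t : M | p • t = 0} := by
        rintro y ⟨-, hy⟩
        refine ⟨y - y₀, ?_, add_sub_cancel y₀ y⟩
        show p • (y - y₀) = 0
        rw [nsmul_sub, sub_eq_zero]
        exact hy
      exact (h.image _).subset hsub
    · refine Set.Finite.subset Set.finite_empty ?_
      rintro y ⟨-, hy⟩
      exact (hz ⟨y, hy⟩).elim

end General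

section JZero

local notation "Kb" => AlgebraicClosure ℚ

variable (N : ℕ) [NeZero N] (p : ℕ) [Fact p.Prime]
variable {R : Type} [CommRing R] [Algebra ℤ_[p] R] [IsDomain R] [IsPrincipalIdealRing R]
  [IsLocalRing R]

/-- `TateInputs.exists_galoisRep_JZero` with the finiteness hypothesis on `J[p]` only. -/
theorem exists_galoisRep_JZero' (hpR : (p : R) ∈ maximalIdeal R)
    (hred : Torsion.HasReductionAll N p)
    (hfin : {y : JZero N | p • y = 0}.Finite)
    (S : Finset ℕ) (hpS : p ∈ S) (hNS : ∀ q : ℕ, q.Prime → q ∣ N → q ∈ S)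
    (c : Nat.Primes → R)
    (h2 : Module.finrank R
      (eigenLattice (fun r => opVHom p R (JZero N) (TateInputs.heckeEnd N r)) c) = 2) :
    ∃ ρ : GaloisRepAdic R,
      DetGalois.FrobRelation ρ S (TateInputs.eigenFun c) ∧
      ∀ q : ℕ, q.Prime → (¬ q ∣ N ∧ q ≠ p) → ρ.IsUnramifiedAt q :=
  TateInputs.exists_galoisRep_JZero N p hpR hred (finite_pow_torsion p hfin) S hpS hNS c h2

end JZero

end Fermat.Agent.S30.Arith.TorsionFinite
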